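import Fermat.Agent.Root.SummaryOrthogonalUnits
import Fermat.Agent.SchmidtGames.BadVectors

/-!
# The Dani correspondence

The lattice `g t * u x * ℤ ^ (d + 1)`, where `u x` adds `q x` to the last `d` coordinates and
`g t = diag (exp (-t), exp (t / d), …)`, has a short vector exactly when `q x` is near an integer
vector for some `q` below a multiple of `exp t`. By Mahler's compactness theorem the trajectory is
bounded iff `x` is badly approximable and divergent iff `x` is singular.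
-/

set_option autoImplicit false

noncomputable section

open Matrix Filter Topology

namespace FA.Dani

open FA.SchmidtGames

variable {d : ℕ}

/-- The matrix `g t * u x`. -/
def daniMatrix (x : Fin d → ℝ) (t : ℝ) : Matrix (Fin (d + 1)) (Fin (d + 1)) ℝ :=
  of (Fin.cons (Pi.single 0 (Real.exp (-t)))
    fun i => Real.exp (t / d) • (Fin.cons (x i) (Pi.single i 1) : Fin (d + 1) → ℝ))

theorem daniMatrix_mulVec_zero (x : Fin d → ℝ) (t : ℝ) (w : Fin (d + 1) → ℝ) :
    (daniMatrix x t *ᵥ w) 0 = Real.exp (-t) * w 0 := by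
  simp [daniMatrix, mulVec, dotProduct, Pi.single_apply]

theorem daniMatrix_mulVec_succ (x : Fin d → ℝ) (t : ℝ) (w : Fin (d + 1) → ℝ) (i : Fin d) :
    (daniMatrix x t *ᵥ w) i.succ = Real.exp (t / d) * (w 0 * x i + w i.succ) := by
  simp [daniMatrix, mulVec, dotProduct, Fin.sum_univ_succ, Pi.single_apply]
  ring

theorem det_daniMatrix (hd : 0 < d) (x : Fin d → ℝ) (t : ℝ) : (daniMatrix x t).det = 1 := by
  have hsub : (daniMatrix x t).submatrix Fin.succ (Fin.succAbove 0) =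
      Real.exp (t / d) • (1 : Matrix (Fin d) (Fin d) ℝ) := by
    ext i j
    simp [daniMatrix, Matrix.one_apply, Pi.single_apply, eq_comm]
  have h0 : daniMatrix x t 0 0 = Real.exp (-t) := by simp [daniMatrix]
  rw [det_succ_row_zero, Finset.sum_eq_single 0 ?_ (by simp), hsub, h0, det_smul, det_one,
    mul_one, Fintype.card_fin, ← Real.exp_nat_mul, Fin.val_zero, pow_zero, one_mul, ← Real.exp_add]
  · rw [mul_div_cancel₀ _ (Nat.cast_ne_zero.2 hd.ne'), neg_add_cancel, Real.exp_zero]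
  · intro j _ hj
    simp [daniMatrix, hj]

/-- A nonzero vector of the lattice shorter than `ε` in the sup norm. -/
def HasShort (x : Fin d → ℝ) (t ε : ℝ) : Prop :=
  ∃ (q : ℤ) (p : Fin d → ℤ), (q ≠ 0 ∨ p ≠ 0) ∧ Real.exp (-t) * |(q : ℝ)| < ε ∧
    ∀ i, Real.exp (t / d) * |(q : ℝ) * x i + p i| < ε

theorem exists_sq_lt_of_hasShort {x : Fin d → ℝ} {t ε : ℝ} (h : HasShort x t ε) :
    ∃ v : Fin (d + 1) → ℤ, v ≠ 0 ∧
      ∑ i, (daniMatrix x t *ᵥ fun k => (v k : ℝ)) i ^ 2 < ((d : ℝ) + 1) * ε ^ 2 := by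
  obtain ⟨q, p, hne, h0, hs⟩ := h
  refine ⟨Fin.cons q p, fun h => ?_, ?_⟩
  · exact hne.elim (fun hq => hq (congrFun h 0)) fun hp => hp (funext fun i => congrFun h i.succ)
  have hb : ∀ i, |(daniMatrix x t *ᵥ fun k =>
      ((Fin.cons q p : Fin (d + 1) → ℤ) k : ℝ)) i| < ε := by
    refine Fin.cases ?_ fun i => ?_
    · rwa [daniMatrix_mulVec_zero, abs_mul, Real.abs_exp, Fin.cons_zero]
    · rw [daniMatrix_mulVec_succ, abs_mul, Real.abs_exp, Fin.cons_zero, Fin.cons_succ]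
      exact hs i
  refine (Finset.sum_lt_sum_of_nonempty Finset.univ_nonempty fun i _ =>
    sq_lt_sq.2 ((hb i).trans_le (le_abs_self ε))).trans_eq ?_
  rw [Finset.sum_const, Finset.card_univ, Fintype.card_fin, nsmul_eq_mul, Nat.cast_add,
    Nat.cast_one]

theorem hasShort_of_sq_lt {x : Fin d → ℝ} {t ε : ℝ} (hε : 0 ≤ ε) {v : Fin (d + 1) → ℤ} (hv : v ≠ 0)
    (h : ∑ i, (daniMatrix x t *ᵥ fun k => (v k : ℝ)) i ^ 2 < ε ^ 2) : HasShort x t ε := by
  have hb : ∀ i, |(daniMatrix x t *ᵥ fun k => (v k : ℝ)) i| < ε := fun i =>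
    (sq_lt_sq.1 ((Finset.single_le_sum (fun j _ => sq_nonneg _) (Finset.mem_univ i)).trans_lt
      h)).trans_eq (abs_of_nonneg hε)
  refine ⟨v 0, fun i => v i.succ, ?_, ?_, fun i => ?_⟩
  · by_contra! hc
    exact hv (funext (Fin.cases hc.1 fun i => congrFun hc.2 i))
  · have := hb 0
    rwa [daniMatrix_mulVec_zero, abs_mul, Real.abs_exp] at this
  · have := hb i.succ
    rwa [daniMatrix_mulVec_succ, abs_mul, Real.abs_exp] at this

/-- The trajectory stays in a compact part of the space of unimodular lattices. -/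
def IsBoundedOrbit (x : Fin d → ℝ) : Prop :=
  ∃ K : Set (Matrix (Fin (d + 1)) (Fin (d + 1)) ℝ), IsCompact K ∧ (∀ h ∈ K, |h.det| = 1) ∧
    ∀ t : ℝ, 0 ≤ t → ∃ U : GL (Fin (d + 1)) ℤ,
      daniMatrix x t * (U : Matrix (Fin (d + 1)) (Fin (d + 1)) ℤ).map (fun z : ℤ => (z : ℝ)) ∈ K

/-- The trajectory leaves every compact part of the space of unimodular lattices. -/
def IsDivergentOrbit (x : Fin d → ℝ) : Prop :=
  ∀ K : Set (Matrix (Fin (d + 1)) (Fin (d + 1)) ℝ), IsCompact K → (∀ h ∈ K, |h.det| = 1) →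
    ∀ᶠ t : ℝ in atTop, ∀ U : GL (Fin (d + 1)) ℤ,
      daniMatrix x t * (U : Matrix (Fin (d + 1)) (Fin (d + 1)) ℤ).map (fun z : ℤ => (z : ℝ)) ∉ K

theorem exists_eps_of_compact {K : Set (Matrix (Fin (d + 1)) (Fin (d + 1)) ℝ)} (hK : IsCompact K)
    (hdet : ∀ h ∈ K, |h.det| = 1) :
    ∃ ε : ℝ, 0 < ε ∧ ∀ (x : Fin d → ℝ) (t : ℝ), (∃ U : GL (Fin (d + 1)) ℤ,
      daniMatrix x t * (U : Matrix (Fin (d + 1)) (Fin (d + 1)) ℤ).map (fun z : ℤ => (z : ℝ)) ∈ K) →
        ¬HasShort x t ε := by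
  obtain ⟨ε₀, hε₀, h⟩ := FA.Summary.mahler_compactness_converse hK hdet
  refine ⟨Real.sqrt (ε₀ / ((d : ℝ) + 1)), Real.sqrt_pos.2 (by positivity),
    fun x t ⟨U, hU⟩ hs => ?_⟩
  obtain ⟨v, hv, hlt⟩ := exists_sq_lt_of_hasShort hs
  have h1 := h _ hU U⁻¹ v hv
  have e : (U : Matrix (Fin (d + 1)) (Fin (d + 1)) ℤ).map (fun z : ℤ => (z : ℝ)) *
      ((U⁻¹ : GL (Fin (d + 1)) ℤ) : Matrix (Fin (d + 1)) (Fin (d + 1)) ℤ).map
        (fun z : ℤ => (z : ℝ)) = 1 := by
    change OrthogonalUnits.toReal _ * OrthogonalUnits.toReal _ = 1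
    rw [← OrthogonalUnits.toReal_mul, ← GeneralLinearGroup.coe_mul, mul_inv_cancel]
    exact OrthogonalUnits.toReal_one
  rw [mul_assoc, e, mul_one] at h1
  rw [Real.sq_sqrt (by positivity), mul_div_cancel₀ _ (by positivity)] at hlt
  linarith

theorem exists_compact_of_eps (hd : 0 < d) {ε : ℝ} (hε : 0 < ε) :
    ∃ K : Set (Matrix (Fin (d + 1)) (Fin (d + 1)) ℝ), IsCompact K ∧ (∀ h ∈ K, |h.det| = 1) ∧
      ∀ (x : Fin d → ℝ) (t : ℝ), ¬HasShort x t ε → ∃ U : GL (Fin (d + 1)) ℤ,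
        daniMatrix x t * (U : Matrix (Fin (d + 1)) (Fin (d + 1)) ℤ).map (fun z : ℤ => (z : ℝ))
          ∈ K := by
  obtain ⟨K, hK, hdet, h⟩ := FA.Summary.mahler_compactness (d + 1) (pow_pos hε 2)
  refine ⟨K, hK, hdet, fun x t hns => h _ (by rw [det_daniMatrix hd, abs_one]) fun v hv => ?_⟩
  exact le_of_not_gt fun hlt => hns (hasShort_of_sq_lt hε.le hv hlt)

theorem isBoundedOrbit_iff (hd : 0 < d) (x : Fin d → ℝ) :
    IsBoundedOrbit x ↔ ∃ ε : ℝ, 0 < ε ∧ ∀ t : ℝ, 0 ≤ t → ¬HasShort x t ε := by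
  constructor
  · rintro ⟨K, hK, hdet, h⟩
    obtain ⟨ε, hε, hK'⟩ := exists_eps_of_compact hK hdet
    exact ⟨ε, hε, fun t ht => hK' x t (h t ht)⟩
  · rintro ⟨ε, hε, h⟩
    obtain ⟨K, hK, hdet, hK'⟩ := exists_compact_of_eps hd hε
    exact ⟨K, hK, hdet, fun t ht => hK' x t (h t ht)⟩

theorem isDivergentOrbit_iff (hd : 0 < d) (x : Fin d → ℝ) :
    IsDivergentOrbit x ↔ ∀ ε : ℝ, 0 < ε → ∀ᶠ t : ℝ in atTop, HasShort x t ε := by
  constructor
  · intro h ε hε
    obtain ⟨K, hK, hdet, hK'⟩ := exists_compact_of_eps hd hε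
    filter_upwards [h K hK hdet] with t ht
    by_contra hns
    obtain ⟨U, hU⟩ := hK' x t hns
    exact ht U hU
  · intro h K hK hdet
    obtain ⟨ε, hε, hK'⟩ := exists_eps_of_compact hK hdet
    filter_upwards [h ε hε] with t ht U hU
    exact hK' x t ⟨U, hU⟩ ht

/-- The singular vectors: Dirichlet's theorem holds with every constant from some height on. -/
def singularVectors (d : ℕ) : Set (Fin d → ℝ) :=
  {x | ∀ ε : ℝ, 0 < ε → ∀ᶠ Q : ℝ in atTop, ∃ q : ℕ, 0 < q ∧ (q : ℝ) ≤ Q ∧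
    ∃ p : Fin d → ℤ, ∀ i, |(q : ℝ) * x i - p i| ≤ ε / Q ^ (1 / (d : ℝ))}

theorem rpow_exp_one_div (t : ℝ) : Real.exp t ^ (1 / (d : ℝ)) = Real.exp (t / d) := by
  rw [← Real.exp_mul, mul_one_div]

/-- **Dani**: bounded trajectories are the badly approximable vectors. -/
theorem isBoundedOrbit_iff_badVectors (hd : 0 < d) (x : Fin d → ℝ) :
    IsBoundedOrbit x ↔ x ∈ badVectors d := by
  have hd1 : (1 : ℝ) ≤ d := by exact_mod_cast hd
  rw [isBoundedOrbit_iff hd]
  constructor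
  · rintro ⟨ε₀, hε₀, h⟩
    set ε := min ε₀ 1 with hεdef
    have hε : 0 < ε := lt_min hε₀ one_pos
    refine ⟨ε ^ 2 / 2, by positivity, fun q hq p => ?_⟩
    by_contra! hall
    have hqR : (1 : ℝ) ≤ q := by exact_mod_cast hq
    have h2 : 1 ≤ 2 / ε := (one_le_div hε).2 (by linarith [min_le_right ε₀ 1])
    set t := Real.log (2 * q / ε) with ht
    have hpos : 0 < 2 * (q : ℝ) / ε := by positivity
    have ht0 : 0 ≤ t := Real.log_nonneg ((one_le_div hε).2 (by linarith [min_le_right ε₀ 1]))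
    refine h t ht0 ⟨(q : ℤ), fun i => -p i, Or.inl (by exact_mod_cast hq.ne'), ?_, fun i => ?_⟩
    · rw [ht, Real.exp_neg, Real.exp_log hpos, Int.cast_natCast, Nat.abs_cast, inv_div,
        div_mul_eq_mul_div, div_lt_iff₀ (by positivity)]
      linarith [mul_lt_mul_of_pos_left (lt_of_lt_of_le (half_lt_self hε) (min_le_left ε₀ 1))
        (show (0 : ℝ) < 2 * q by positivity)]
    · rw [← rpow_exp_one_div, ht, Real.exp_log hpos, Int.cast_natCast, Int.cast_neg,
        ← sub_eq_add_neg]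
      have hroot : 0 < (q : ℝ) ^ (1 / (d : ℝ)) := Real.rpow_pos_of_pos (by linarith) _
      calc (2 * (q : ℝ) / ε) ^ (1 / (d : ℝ)) * |(q : ℝ) * x i - p i|
          < (2 * (q : ℝ) / ε) ^ (1 / (d : ℝ)) * (ε ^ 2 / 2 / (q : ℝ) ^ (1 / (d : ℝ))) :=
            mul_lt_mul_of_pos_left (hall i) (Real.rpow_pos_of_pos hpos _)
        _ = (2 / ε) ^ (1 / (d : ℝ)) * (ε ^ 2 / 2) := by
            rw [mul_div_right_comm, Real.mul_rpow (by positivity) (by linarith)]
            field_simp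
        _ ≤ 2 / ε * (ε ^ 2 / 2) := by
            gcongr
            exact Real.rpow_le_self_of_one_le h2 ((div_le_one (by linarith)).2 hd1)
        _ ≤ ε₀ := by
            rw [show 2 / ε * (ε ^ 2 / 2) = ε by field_simp]
            exact min_le_left ε₀ 1
  · rintro ⟨c, hc, h⟩
    set ε := min c 1 with hεdef
    have hε : 0 < ε := lt_min hc one_pos
    refine ⟨ε, hε, fun t ht hs => ?_⟩
    obtain ⟨q, p, hne, h0, hs⟩ := hs
    have hexp : 1 ≤ Real.exp (t / d) := Real.one_le_exp (by positivity)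
    have hsmall : ∀ i, |(q : ℝ) * x i + p i| < ε := fun i =>
      lt_of_le_of_lt (le_mul_of_one_le_left (abs_nonneg _) hexp) (hs i)
    rcases eq_or_ne q 0 with rfl | hq
    · obtain ⟨i, hi⟩ := Function.ne_iff.1 (hne.resolve_left (by simp))
      have h1 := (hsmall i).trans_le (min_le_right c 1)
      rw [Int.cast_zero, zero_mul, zero_add] at h1
      exact (not_lt.2 (show (1 : ℝ) ≤ |(p i : ℝ)| by exact_mod_cast Int.one_le_abs hi)) h1
    set Q := q.natAbs with hQ
    have hQ0 : 0 < Q := Int.natAbs_pos.2 hq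
    have hQR : (Q : ℝ) = |(q : ℝ)| := by rw [hQ, Nat.cast_natAbs, Int.cast_abs]
    have hbound : (Q : ℝ) ^ (1 / (d : ℝ)) ≤ Real.exp (t / d) := by
      rw [← rpow_exp_one_div]
      refine Real.rpow_le_rpow (Nat.cast_nonneg _) ?_ (by positivity)
      rw [Real.exp_neg, ← hQR, inv_mul_lt_iff₀ (Real.exp_pos t)] at h0
      exact h0.le.trans (mul_le_of_le_one_right (Real.exp_pos t).le (min_le_right c 1))
    obtain ⟨i, hi⟩ := h Q hQ0 (if 0 ≤ q then -p else p)
    rw [div_le_iff₀ (Real.rpow_pos_of_pos (Nat.cast_pos.2 hQ0) _)] at hi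
    have heq : |(Q : ℝ) * x i - ((if 0 ≤ q then -p else p) i : ℤ)| =
        |(q : ℝ) * x i + p i| := by
      rw [hQR]
      split_ifs with hsgn
      · rw [abs_of_nonneg (Int.cast_nonneg hsgn : (0 : ℝ) ≤ q), Pi.neg_apply, Int.cast_neg,
          sub_neg_eq_add]
      · rw [abs_of_neg (Int.cast_lt_zero.2 (not_le.1 hsgn) : (q : ℝ) < 0), ← abs_neg]
        ring_nf
    rw [heq] at hi
    have := mul_le_mul_of_nonneg_left hbound (abs_nonneg ((q : ℝ) * x i + p i))
    linarith [hs i, min_le_left c 1]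

/-- **Dani**: divergent trajectories are the singular vectors. -/
theorem isDivergentOrbit_iff_singularVectors (hd : 0 < d) (x : Fin d → ℝ) :
    IsDivergentOrbit x ↔ x ∈ singularVectors d := by
  have hd1 : (1 : ℝ) ≤ d := by exact_mod_cast hd
  rw [isDivergentOrbit_iff hd]
  constructor
  · intro h ε hε
    set δ := min ε 1 with hδdef
    have hδ : 0 < δ := lt_min hε one_pos
    filter_upwards [Real.tendsto_log_atTop.eventually (h δ hδ), eventually_ge_atTop 1]
      with Q hshort hQ1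
    obtain ⟨q, p, hne, h0, hs⟩ := hshort
    have hQ0 : 0 < Q := by linarith
    rw [Real.exp_neg, Real.exp_log hQ0, inv_mul_lt_iff₀ hQ0] at h0
    have hroot : 0 < Q ^ (1 / (d : ℝ)) := Real.rpow_pos_of_pos hQ0 _
    have hsmall : ∀ i, |(q : ℝ) * x i + p i| < δ / Q ^ (1 / (d : ℝ)) := fun i => by
      have := hs i
      rw [← rpow_exp_one_div, Real.exp_log hQ0] at this
      rw [lt_div_iff₀ hroot]
      linarith
    have hq : q ≠ 0 := by
      rintro rfl
      obtain ⟨i, hi⟩ := Function.ne_iff.1 (hne.resolve_left (by simp))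
      have h1 := (hsmall i).trans_le ((div_le_self hδ.le
        (Real.one_le_rpow hQ1 (by positivity))).trans (min_le_right ε 1))
      rw [Int.cast_zero, zero_mul, zero_add] at h1
      exact (not_lt.2 (show (1 : ℝ) ≤ |(p i : ℝ)| by exact_mod_cast Int.one_le_abs hi)) h1
    refine ⟨q.natAbs, Int.natAbs_pos.2 hq, ?_, if 0 ≤ q then -p else p, fun i => ?_⟩
    · rw [Nat.cast_natAbs, Int.cast_abs]
      exact h0.le.trans (mul_le_of_le_one_right hQ0.le (min_le_right ε 1))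
    · refine le_trans ?_ ((hsmall i).le.trans
        (div_le_div_of_nonneg_right (min_le_left ε 1) hroot.le))
      rw [Nat.cast_natAbs, Int.cast_abs]
      split_ifs with hsgn
      · rw [abs_of_nonneg (Int.cast_nonneg hsgn : (0 : ℝ) ≤ q), Pi.neg_apply, Int.cast_neg,
          sub_neg_eq_add]
      · rw [abs_of_neg (Int.cast_lt_zero.2 (not_le.1 hsgn) : (q : ℝ) < 0), ← abs_neg]
        ring_nf
        exact le_rfl
  · intro h ε₀ hε₀
    set ε := min ε₀ 1 with hεdef
    have hε : 0 < ε := lt_min hε₀ one_pos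
    have h2 : 1 ≤ 2 / ε := (one_le_div hε).2 (by linarith [min_le_right ε₀ 1])
    have hlim : Tendsto (fun t => ε / 2 * Real.exp t) atTop atTop :=
      Real.tendsto_exp_atTop.const_mul_atTop (half_pos hε)
    filter_upwards [hlim.eventually (h (ε ^ 2 / 4) (by positivity))] with t ht
    obtain ⟨q, hq, hqQ, p, hp⟩ := ht
    refine ⟨(q : ℤ), fun i => -p i, Or.inl (by exact_mod_cast hq.ne'), ?_, fun i => ?_⟩
    · rw [Real.exp_neg, Int.cast_natCast, Nat.abs_cast, inv_mul_lt_iff₀ (Real.exp_pos t)]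
      have := mul_lt_mul_of_pos_left (lt_of_lt_of_le (half_lt_self hε) (min_le_left ε₀ 1))
        (Real.exp_pos t)
      linarith
    · rw [← rpow_exp_one_div, Int.cast_natCast, Int.cast_neg, ← sub_eq_add_neg]
      calc Real.exp t ^ (1 / (d : ℝ)) * |(q : ℝ) * x i - p i|
          ≤ Real.exp t ^ (1 / (d : ℝ)) *
            (ε ^ 2 / 4 / (ε / 2 * Real.exp t) ^ (1 / (d : ℝ))) := by
            gcongr
            exact hp i
        _ = (2 / ε) ^ (1 / (d : ℝ)) * (ε ^ 2 / 4) := by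
            rw [Real.mul_rpow (by positivity) (Real.exp_pos t).le,
              show 2 / ε = (ε / 2)⁻¹ by rw [inv_div], Real.inv_rpow (by positivity)]
            field_simp
        _ ≤ 2 / ε * (ε ^ 2 / 4) := by
            gcongr
            exact Real.rpow_le_self_of_one_le h2 ((div_le_one (by linarith)).2 hd1)
        _ < ε₀ := by
            rw [show 2 / ε * (ε ^ 2 / 4) = ε / 2 by field_simp; ring]
            linarith [min_le_left ε₀ 1]

end FA.Dani
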